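/-
Program MW (S17), height part H, brick S1a (helper62): the PRODUCT FORMULA for rational numbers in
the `QbarAbs.gsum` form, for an arbitrary `A : QbarAbs K`, together with the finiteness of supports
that makes `gsum` a genuine finite sum.

* `sum_log_padicNorm_nat`, `sum_log_padicNorm_rat` : `∑ᶠ_p log |q|_p = - log |q|`;
* `QbarAbs.inf_rat` : the archimedean absolute value restricts to the usual one on `ℚ`;
* `QbarAbs.hasFiniteSupport_log` : `p ↦ log |x|_p` has finite support for `x ≠ 0`;
* `QbarAbs.gsum_log_rat` : `∑_{p ≤ ∞} log |q|_p = 0` for `q ∈ ℚˣ`;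
* `QbarAbs.gsum_add`, `gsum_finset_sum`, `gsum_const_mul`, `gsum_neg`, `gsum_sub` : algebra of `gsum`
  on finitely supported families.
-/
import Mathlib
import Fermat.Agent.MW.Spec.Defs7

set_option autoImplicit false

namespace Fermat.Agent.MW.Arith.ProductFormula62

open Fermat.Agent.MW.Spec.Defs7 Function

/-! ### The product formula on `ℚ`, sums over the primes -/

instance factPrime (p : Nat.Primes) : Fact (p : ℕ).Prime := ⟨p.2⟩

/-- The function `p ↦ log |n|_p` on primes, for a natural number `n`. -/
noncomputable def logNorm (q : ℚ) (p : Nat.Primes) : ℝ := Real.log ((padicNorm p q : ℚ) : ℝ)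

theorem logNorm_mul {a b : ℚ} (ha : a ≠ 0) (hb : b ≠ 0) (p : Nat.Primes) :
    logNorm (a * b) p = logNorm a p + logNorm b p := by
  unfold logNorm
  rw [padicNorm.mul, Rat.cast_mul, Real.log_mul]
  · exact_mod_cast (padicNorm.nonzero ha)
  · exact_mod_cast (padicNorm.nonzero hb)

theorem logNorm_one (p : Nat.Primes) : logNorm 1 p = 0 := by
  unfold logNorm; simp

theorem logNorm_neg (a : ℚ) (p : Nat.Primes) : logNorm (-a) p = logNorm a p := by
  unfold logNorm; rw [padicNorm.neg]

theorem logNorm_inv {a : ℚ} (p : Nat.Primes) : logNorm a⁻¹ p = -logNorm a p := by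
  unfold logNorm
  rw [inv_eq_one_div, padicNorm.div, padicNorm.one, one_div, Rat.cast_inv, Real.log_inv]

theorem logNorm_prime_self (l : Nat.Primes) : logNorm ((l : ℕ) : ℚ) l = -Real.log (l : ℕ) := by
  unfold logNorm
  rw [padicNorm.padicNorm_p l.2.one_lt, Rat.cast_inv, Real.log_inv]
  simp

theorem logNorm_prime_of_ne {l p : Nat.Primes} (h : p ≠ l) : logNorm ((l : ℕ) : ℚ) p = 0 := by
  unfold logNorm
  have hne : (p : ℕ) ≠ (l : ℕ) := fun h' => h (Subtype.ext h')
  rw [padicNorm.padicNorm_of_prime_of_ne hne]
  simp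

/-- **Product formula for natural numbers**, finite part. -/
theorem sum_log_padicNorm_nat (n : ℕ) (hn : n ≠ 0) :
    HasFiniteSupport (logNorm (n : ℚ)) ∧ ∑ᶠ p : Nat.Primes, logNorm (n : ℚ) p = -Real.log n := by
  induction n using Nat.recOnMul with
  | zero => exact absurd rfl hn
  | one =>
    have h : logNorm ((1 : ℕ) : ℚ) = fun _ => 0 := by
      funext p; rw [Nat.cast_one]; exact logNorm_one p
    rw [h]
    refine ⟨?_, by simp⟩
    simp [HasFiniteSupport]
  | prime l hl =>
    set L : Nat.Primes := ⟨l, hl⟩ with hL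
    have hsupp : support (logNorm ((l : ℕ) : ℚ)) ⊆ {L} := by
      intro p hp
      by_contra hne
      exact hp (logNorm_prime_of_ne (l := L) hne)
    refine ⟨(Set.finite_singleton L).subset hsupp, ?_⟩
    rw [finsum_eq_single _ L (fun p hp => logNorm_prime_of_ne (l := L) hp)]
    exact logNorm_prime_self L
  | mul a b iha ihb =>
    have ha : a ≠ 0 := fun h => hn (by rw [h, zero_mul])
    have hb : b ≠ 0 := fun h => hn (by rw [h, mul_zero])
    obtain ⟨fa, sa⟩ := iha ha
    obtain ⟨fb, sb⟩ := ihb hb
    have haq : (a : ℚ) ≠ 0 := by exact_mod_cast ha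
    have hbq : (b : ℚ) ≠ 0 := by exact_mod_cast hb
    have h : logNorm ((a * b : ℕ) : ℚ) = fun p => logNorm (a : ℚ) p + logNorm (b : ℚ) p := by
      funext p; rw [Nat.cast_mul]; exact logNorm_mul haq hbq p
    rw [h]
    refine ⟨?_, ?_⟩
    · exact (fa.union fb).subset (support_add _ _)
    · rw [finsum_add_distrib fa fb, sa, sb, Nat.cast_mul,
        Real.log_mul (by exact_mod_cast ha) (by exact_mod_cast hb)]
      ring

/-- **Product formula for rational numbers**, finite part: `∑_p log |q|_p = - log |q|`. -/
theorem sum_log_padicNorm_rat (q : ℚ) (hq : q ≠ 0) :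
    HasFiniteSupport (logNorm q) ∧ ∑ᶠ p : Nat.Primes, logNorm q p = -Real.log |(q : ℝ)| := by
  have hnum : q.num.natAbs ≠ 0 := Int.natAbs_ne_zero.mpr (Rat.num_ne_zero.mpr hq)
  have hden : q.den ≠ 0 := q.den_ne_zero
  obtain ⟨fa, sa⟩ := sum_log_padicNorm_nat _ hnum
  obtain ⟨fb, sb⟩ := sum_log_padicNorm_nat _ hden
  have hnumq : ((q.num.natAbs : ℕ) : ℚ) ≠ 0 := by exact_mod_cast hnum
  have hdenq : ((q.den : ℕ) : ℚ) ≠ 0 := by exact_mod_cast hden
  have hkey : ∀ p, logNorm q p = logNorm (q.num.natAbs : ℚ) p + -logNorm (q.den : ℚ) p := by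
    intro p
    have hq' : q = (q.num : ℚ) * ((q.den : ℕ) : ℚ)⁻¹ := by
      rw [← div_eq_mul_inv]; exact (Rat.num_div_den q).symm
    have hnumabs : logNorm ((q.num : ℤ) : ℚ) p = logNorm (q.num.natAbs : ℚ) p := by
      rcases Int.natAbs_eq q.num with h | h
      · rw [h]; simp
      · conv_lhs => rw [h]
        rw [Int.cast_neg, logNorm_neg]; simp
    conv_lhs => rw [hq']
    rw [logNorm_mul (by exact_mod_cast Rat.num_ne_zero.mpr hq) (inv_ne_zero hdenq), logNorm_inv,
      hnumabs]
  have hfun : logNorm q = fun p => logNorm (q.num.natAbs : ℚ) p + -logNorm (q.den : ℚ) p :=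
    funext hkey
  have fb' : HasFiniteSupport (fun p => -logNorm (q.den : ℚ) p) := by
    have : support (fun p => -logNorm (q.den : ℚ) p) = support (logNorm (q.den : ℚ)) := by
      ext p; simp
    rw [HasFiniteSupport, this]; exact fb
  rw [hfun]
  refine ⟨(fa.union fb').subset (support_add _ _), ?_⟩
  rw [finsum_add_distrib fa fb', finsum_neg_distrib, sa, sb]
  have habs : |(q : ℝ)| = (q.num.natAbs : ℝ) / (q.den : ℝ) := by
    have h1 : (q : ℝ) = (q.num : ℝ) / (q.den : ℝ) := by
      exact_mod_cast (Rat.num_div_den q).symm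
    rw [h1, abs_div, Nat.abs_cast, Nat.cast_natAbs, Int.cast_abs]
  rw [habs, Real.log_div (by exact_mod_cast hnum) (by exact_mod_cast hden)]
  ring


/-! ### The product formula for a `QbarAbs` -/

section QbarAbs

variable {K : Type*} [Field K] [CharZero K] (A : QbarAbs K)

/-- The archimedean absolute value of `A` restricts to the usual absolute value on `ℚ`. -/
theorem inf_rat (q : ℚ) : A.inf (q : K) = |(q : ℝ)| := by
  obtain ⟨e, he⟩ := A.inf_cplx
  rw [he, map_ratCast]
  have : ((q : ℂ)) = (((q : ℝ)) : ℂ) := by push_cast; rfl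
  rw [this, Complex.norm_real, Real.norm_eq_abs]

theorem abv_none (x : K) : A.abv none x = A.inf x := rfl

theorem abv_some (p : Nat.Primes) (x : K) : A.abv (some p) x = A.fin p x := rfl

/-- All the absolute values of a `QbarAbs` are "nice". -/
theorem isNiceAbs (p : Option Nat.Primes) : IsNiceAbs (A.abv p) := by
  cases p with
  | none => exact Or.inr A.inf_cplx
  | some p => exact Or.inl (A.fin_nonarch p)

/-- `p ↦ log |x|_p` has finite support for `x ≠ 0`. -/
theorem hasFiniteSupport_log (x : K) (hx : x ≠ 0) :
    HasFiniteSupport (fun p : Option Nat.Primes => Real.log (A.abv p x)) := by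
  have hfin := A.finite_ne_one x hx
  have hsub : support (fun p : Option Nat.Primes => Real.log (A.abv p x))
      ⊆ insert none (some '' {p : Nat.Primes | A.fin p x ≠ 1}) := by
    intro p hp
    cases p with
    | none => exact Set.mem_insert _ _
    | some p =>
      refine Set.mem_insert_of_mem _ ⟨p, ?_, rfl⟩
      intro h1
      apply hp
      show Real.log (A.fin p x) = 0
      rw [h1, Real.log_one]
  exact ((hfin.image _).insert _).subset hsub

/-- `p ↦ log⁺ |x|_p` has finite support (also for `x = 0`). -/
theorem hasFiniteSupport_posLog (x : K) :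
    HasFiniteSupport (fun p : Option Nat.Primes => Real.posLog (A.abv p x)) := by
  rcases eq_or_ne x 0 with rfl | hx
  · have : (fun p : Option Nat.Primes => Real.posLog (A.abv p (0 : K))) = fun _ => 0 := by
      funext p; simp
    rw [this]; simp [HasFiniteSupport]
  · have hfin := A.finite_ne_one x hx
    have hsub : support (fun p : Option Nat.Primes => Real.posLog (A.abv p x))
        ⊆ insert none (some '' {p : Nat.Primes | A.fin p x ≠ 1}) := by
      intro p hp
      cases p with
      | none => exact Set.mem_insert _ _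
      | some p =>
        refine Set.mem_insert_of_mem _ ⟨p, ?_, rfl⟩
        intro h1
        apply hp
        show Real.posLog (A.fin p x) = 0
        rw [h1]; simp
    exact ((hfin.image _).insert _).subset hsub

/-- **The product formula**: `∑_{p ≤ ∞} log |q|_p = 0` for a nonzero rational number `q`. -/
theorem gsum_log_rat (q : ℚ) (hq : q ≠ 0) :
    A.gsum (fun p => Real.log (A.abv p (q : K))) = 0 := by
  obtain ⟨hfs, hsum⟩ := sum_log_padicNorm_rat q hq
  have hsome : (fun p : Nat.Primes => Real.log (A.abv (some p) (q : K))) = logNorm q := by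
    funext p
    rw [abv_some, A.fin_rat]; rfl
  have hfs' : HasFiniteSupport
      ((fun p : Option Nat.Primes => Real.log (A.abv p (q : K))) ∘ some) := by
    have : ((fun p : Option Nat.Primes => Real.log (A.abv p (q : K))) ∘ some) = logNorm q := hsome
    rw [this]; exact hfs
  unfold QbarAbs.gsum
  rw [finsum_option hfs', hsome, hsum, abv_none, inf_rat]
  ring

/-! ### Algebra of `gsum` on finitely supported families -/

theorem gsum_add {f g : Option Nat.Primes → ℝ} (hf : HasFiniteSupport f)
    (hg : HasFiniteSupport g) : A.gsum (fun p => f p + g p) = A.gsum f + A.gsum g :=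
  finsum_add_distrib hf hg

theorem gsum_sub {f g : Option Nat.Primes → ℝ} (hf : HasFiniteSupport f)
    (hg : HasFiniteSupport g) : A.gsum (fun p => f p - g p) = A.gsum f - A.gsum g :=
  finsum_sub_distrib hf hg

theorem gsum_neg (f : Option Nat.Primes → ℝ) : A.gsum (fun p => -f p) = -A.gsum f :=
  finsum_neg_distrib f

theorem gsum_const_mul (c : ℝ) (f : Option Nat.Primes → ℝ) :
    A.gsum (fun p => c * f p) = c * A.gsum f :=
  (mul_finsum f c).symm

theorem gsum_zero : A.gsum (fun _ => 0) = 0 := finsum_zero

theorem gsum_finset_sum {ι : Type*} (s : Finset ι) (f : ι → Option Nat.Primes → ℝ)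
    (hf : ∀ i ∈ s, HasFiniteSupport (f i)) :
    A.gsum (fun p => ∑ i ∈ s, f i p) = ∑ i ∈ s, A.gsum (f i) :=
  finsum_sum_comm s (fun p i => f i p) hf

theorem hasFiniteSupport_finset_sum {ι : Type*} (s : Finset ι) (f : ι → Option Nat.Primes → ℝ)
    (hf : ∀ i ∈ s, HasFiniteSupport (f i)) :
    HasFiniteSupport (fun p => ∑ i ∈ s, f i p) := by
  classical
  induction s using Finset.induction_on with
  | empty => simp [HasFiniteSupport]
  | insert a s ha ih =>
    have h1 := hf a (Finset.mem_insert_self a s)
    have h2 := ih (fun i hi => hf i (Finset.mem_insert_of_mem hi))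
    have : (fun p => ∑ i ∈ insert a s, f i p) = fun p => f a p + ∑ i ∈ s, f i p := by
      funext p; rw [Finset.sum_insert ha]
    rw [this]
    exact (h1.union h2).subset (support_add _ _)

theorem gsum_le_gsum {f g : Option Nat.Primes → ℝ} (hf : HasFiniteSupport f)
    (hg : HasFiniteSupport g) (h : ∀ p, f p ≤ g p) : A.gsum f ≤ A.gsum g :=
  finsum_le_finsum' hf hg h

theorem gsum_nonneg {f : Option Nat.Primes → ℝ} (h : ∀ p, 0 ≤ f p) : 0 ≤ A.gsum f :=
  finsum_nonneg h

/-- The logarithm of the absolute value of a product, summed over all places. -/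
theorem gsum_log_mul {x y : K} (hx : x ≠ 0) (hy : y ≠ 0) :
    A.gsum (fun p => Real.log (A.abv p (x * y)))
      = A.gsum (fun p => Real.log (A.abv p x)) + A.gsum (fun p => Real.log (A.abv p y)) := by
  rw [← gsum_add A (hasFiniteSupport_log A x hx) (hasFiniteSupport_log A y hy)]
  congr 1
  funext p
  rw [map_mul, Real.log_mul]
  · exact (AbsoluteValue.ne_zero_iff _).mpr hx
  · exact (AbsoluteValue.ne_zero_iff _).mpr hy

/-- `heightSum` as a `gsum` of finite sums, and the finiteness of the support of its summand. -/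
theorem hasFiniteSupport_heightSummand (S : Multiset K) :
    HasFiniteSupport (fun p : Option Nat.Primes =>
      (S.map fun α => Real.posLog (A.abv p α)).sum) := by
  induction S using Multiset.induction_on with
  | empty => simp [HasFiniteSupport]
  | cons a S ih =>
    have : (fun p : Option Nat.Primes =>
        ((a ::ₘ S).map fun α => Real.posLog (A.abv p α)).sum)
        = fun p => Real.posLog (A.abv p a) + (S.map fun α => Real.posLog (A.abv p α)).sum := by
      funext p; rw [Multiset.map_cons, Multiset.sum_cons]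
    rw [this]
    exact ((hasFiniteSupport_posLog A a).union ih).subset (support_add _ _)

theorem heightSum_zero : A.heightSum (0 : Multiset K) = 0 := by
  unfold QbarAbs.heightSum QbarAbs.gsum
  simp

theorem heightSum_cons (a : K) (S : Multiset K) :
    A.heightSum (a ::ₘ S) = A.heightSum {a} + A.heightSum S := by
  unfold QbarAbs.heightSum
  rw [← gsum_add A (hasFiniteSupport_heightSummand A {a}) (hasFiniteSupport_heightSummand A S)]
  congr 1
  funext p
  simp

theorem heightSum_singleton (a : K) :
    A.heightSum {a} = A.gsum (fun p => Real.posLog (A.abv p a)) := by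
  unfold QbarAbs.heightSum
  congr 1
  funext p
  simp

theorem heightSum_nonneg (S : Multiset K) : 0 ≤ A.heightSum S := by
  unfold QbarAbs.heightSum
  refine gsum_nonneg A (fun p => Multiset.sum_nonneg ?_)
  intro x hx
  obtain ⟨a, -, rfl⟩ := Multiset.mem_map.mp hx
  exact Real.posLog_nonneg

theorem heightSum_add (S T : Multiset K) :
    A.heightSum (S + T) = A.heightSum S + A.heightSum T := by
  unfold QbarAbs.heightSum
  rw [← gsum_add A (hasFiniteSupport_heightSummand A S) (hasFiniteSupport_heightSummand A T)]
  congr 1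
  funext p
  rw [Multiset.map_add, Multiset.sum_add]

theorem heightSum_le_of_le {S T : Multiset K} (h : S ≤ T) : A.heightSum S ≤ A.heightSum T := by
  obtain ⟨U, rfl⟩ := Multiset.le_iff_exists_add.mp h
  rw [heightSum_add]
  linarith [heightSum_nonneg A U]

end QbarAbs

/-- The product formula, in the literal form of the contract `Spec.Bricks7.ProductFormula`. -/
theorem productFormula_literal :
    ∀ {K : Type} [Field K] [CharZero K] (A : QbarAbs K) (q : ℚ), q ≠ 0 →
      A.gsum (fun p => Real.log (A.abv p (q : K))) = 0 :=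
  fun A q hq => gsum_log_rat A q hq

end Fermat.Agent.MW.Arith.ProductFormula62
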