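/-
Program MW-H (S17), brick S3 (helper49): GALOIS-STABLE MULTISETS HAVE RATIONAL SYMMETRIC FUNCTIONS.

* `map_fixed_mem_range` : for a Galois extension `K / k` (possibly infinite), an element fixed by
  every `σ : K ≃ₐ[k] K` lies in the image of `k`.
* `prod_mem_range`, `sum_mem_range`, `esymm_mem_range` : for a multiset `S` of `K` with
  `S.map σ = S` for all `σ`, the product, the sum and every elementary symmetric function of `S`
  are in the image of `k`;  `prod_X_sub_C_mem_range` : so is the polynomial `∏ (X - α)`.
* `stableProduct : Bricks7.StableProduct` (the contract, `K = ℚ̄`, `k = ℚ`).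
* `gsum_log_prod_eq_zero` : for `A : QbarAbs ℚ̄` and a stable multiset `S` of NONZERO numbers,
  `∑_p log |∏ S|_p = 0`.
-/
import Mathlib
import Fermat.Agent.MW.Spec.Bricks7
import Fermat.Agent.MW.Arith.ProductFormula62

set_option autoImplicit false

namespace Fermat.Agent.MW.Arith.StableProduct49

open Fermat.Agent.MW.Spec.Defs7 Fermat.Agent.MW.Spec.Bricks7 Polynomial

section Generic

variable {k K : Type*} [Field k] [Field K] [Algebra k K] [IsGalois k K]

/-- An element fixed by the whole Galois group is in the base field (infinite extensions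
allowed). -/
theorem map_fixed_mem_range {x : K} (h : ∀ σ : K ≃ₐ[k] K, σ x = x) :
    x ∈ (algebraMap k K).range := by
  have := (InfiniteGalois.mem_range_algebraMap_iff_fixed (k := k) (K := K) x).mpr h
  simpa using this

variable (S : Multiset K)

/-- The product of a Galois-stable multiset is in the base field. -/
theorem prod_mem_range (hS : ∀ σ : K ≃ₐ[k] K, S.map σ = S) :
    S.prod ∈ (algebraMap k K).range := by
  refine map_fixed_mem_range fun σ => ?_
  rw [map_multiset_prod, hS σ]

/-- The sum of a Galois-stable multiset is in the base field. -/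
theorem sum_mem_range (hS : ∀ σ : K ≃ₐ[k] K, S.map σ = S) :
    S.sum ∈ (algebraMap k K).range := by
  refine map_fixed_mem_range fun σ => ?_
  rw [map_multiset_sum, hS σ]

/-- The elementary symmetric functions of a Galois-stable multiset are in the base field. -/
theorem esymm_mem_range (hS : ∀ σ : K ≃ₐ[k] K, S.map σ = S) (n : ℕ) :
    S.esymm n ∈ (algebraMap k K).range := by
  refine map_fixed_mem_range fun σ => ?_
  have h' : σ (S.esymm n) = (S.map σ).esymm n := by
    simp only [Multiset.esymm, map_multiset_sum, Multiset.powersetCard_map, Multiset.map_map]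
    refine congrArg _ (Multiset.map_congr rfl fun T _ => ?_)
    simp [map_multiset_prod]
  rw [h', hS σ]

/-- The monic polynomial with roots a Galois-stable multiset has coefficients in the base
field. -/
theorem prod_X_sub_C_mem_range (hS : ∀ σ : K ≃ₐ[k] K, S.map σ = S) :
    ∃ P : k[X], P.map (algebraMap k K) = (S.map fun a => X - C a).prod := by
  set Q : K[X] := (S.map fun a => X - C a).prod with hQ
  have hcoeff : ∀ n, Q.coeff n ∈ (algebraMap k K).range := by
    intro n
    refine map_fixed_mem_range fun σ => ?_
    have hmap : Q.map (σ : K →+* K) = Q := by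
      rw [hQ, Polynomial.map_multiset_prod, Multiset.map_map]
      conv_rhs => rw [← hS σ, Multiset.map_map]
      congr 1
      refine Multiset.map_congr rfl fun a _ => ?_
      simp
    have := congrArg (fun P : K[X] => P.coeff n) hmap
    simpa [Polynomial.coeff_map] using this
  have : Q ∈ Polynomial.lifts (algebraMap k K) := by
    rw [Polynomial.lifts_iff_coeff_lifts]
    intro n
    exact hcoeff n
  obtain ⟨P, hP⟩ := this
  exact ⟨P, hP⟩

end Generic

/-- **Brick S3**: a Galois-stable multiset of algebraic numbers has a rational product. -/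
theorem stableProduct : StableProduct := by
  intro S hS
  have hcl : IsAlgClosure ℚ (AlgebraicClosure ℚ) := by
    have h : (DivisionRing.toRatAlgebra : Algebra ℚ (AlgebraicClosure ℚ))
        = AlgebraicClosure.instAlgebra ℚ := Subsingleton.elim _ _
    rw [h]
    infer_instance
  have : IsGalois ℚ (AlgebraicClosure ℚ) := IsAlgClosure.isGalois ℚ (AlgebraicClosure ℚ)
  exact prod_mem_range (k := ℚ) S hS

open Fermat.Agent.MW.Arith.ProductFormula62 in
/-- For a Galois-stable multiset of nonzero algebraic numbers, the sum over all places of the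
logarithms of the absolute values of the product vanishes. -/
theorem gsum_log_prod_eq_zero (A : QbarAbs (AlgebraicClosure ℚ))
    (S : Multiset (AlgebraicClosure ℚ))
    (hS : ∀ σ : AlgebraicClosure ℚ ≃ₐ[ℚ] AlgebraicClosure ℚ, S.map σ = S)
    (h0 : (0 : AlgebraicClosure ℚ) ∉ S) :
    A.gsum (fun p => Real.log (A.abv p S.prod)) = 0 := by
  obtain ⟨q, hq⟩ := stableProduct S hS
  have hq0 : q ≠ 0 := by
    rintro rfl
    rw [map_zero] at hq
    exact h0 (Multiset.prod_eq_zero_iff.mp hq.symm)
  have h := gsum_log_rat A q hq0
  rw [← hq]
  simpa [eq_ratCast] using h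

end Fermat.Agent.MW.Arith.StableProduct49
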