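/-
Program MW (S17), height part H, brick S2 (helper62): NORTHCOTT for Galois-stable multisets of
algebraic numbers of bounded cardinality and bounded `QbarAbs.heightSum`.

Route: `P_S = ∏_{a ∈ S} (X - a)` has rational coefficients (fixed field of the Galois group), each
coefficient `c` satisfies `log⁺ |c|_v ≤ [v = ∞] · r log 2 + ∑_{a ∈ S} log⁺ |a|_v` at every place, so
its height (in `gsum` form) is at most `r log 2 + heightSum S`; rational numbers of bounded height
are finite in number; `S` is the multiset of roots of `P_S`.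

* `gsum_posLog_rat_ge`, `finite_rat_of_log_bounds` : Northcott for `ℚ` in `gsum` form;
* `coeff_rootPoly_le_nonarch`, `coeff_rootPoly_le_arch` : local Gauss/triangle bounds;
* `coeff_rootPoly_mem_range`, `exists_rat_poly` : rationality of the coefficients;
* `gsum_posLog_coeff_le` : global height bound for the coefficients;
* `finite_stable_multisets` : the theorem;  `stableNorthcott_literal` : the contract form.
-/
import Mathlib
import Fermat.Agent.MW.Spec.Defs7
import Fermat.Agent.MW.Arith.ProductFormula62

set_option autoImplicit false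

namespace Fermat.Agent.MW.Arith.StableNorthcott62

open Polynomial Function Fermat.Agent.MW.Spec.Defs7 Fermat.Agent.MW.Arith.ProductFormula62

/-! ### Northcott for `ℚ`, in `gsum` form -/

section RatNorthcott

/-- Local inequality: `log⁺ |q|_p ≥ - log |den q|_p`. -/
theorem neg_logNorm_den_le (q : ℚ) (p : Nat.Primes) :
    -logNorm (q.den : ℚ) p ≤ Real.posLog ((padicNorm p q : ℚ) : ℝ) := by
  by_cases hp : (p : ℕ) ∣ q.den
  · have hnum : ¬ ((p : ℕ) : ℤ) ∣ q.num := by
      intro h
      have h1 : (p : ℕ) ∣ q.num.natAbs := Int.natCast_dvd.mp h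
      have := Nat.Coprime.eq_one_of_dvd (Nat.Coprime.coprime_dvd_left h1 q.reduced) hp
      exact p.2.one_lt.ne' this
    have h1 : padicNorm p (q.num : ℚ) = 1 := (padicNorm.int_eq_one_iff q.num).mpr hnum
    have hq' : q = (q.num : ℚ) / ((q.den : ℕ) : ℚ) := (Rat.num_div_den q).symm
    have h2 : padicNorm p q = (padicNorm p ((q.den : ℕ) : ℚ))⁻¹ := by
      conv_lhs => rw [hq']
      rw [padicNorm.div, h1, one_div]
    have h3 : Real.log ((padicNorm p q : ℚ) : ℝ) = -logNorm (q.den : ℚ) p := by
      unfold logNorm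
      rw [h2, Rat.cast_inv, Real.log_inv]
    rw [← h3]
    unfold Real.posLog
    exact le_max_right _ _
  · have h1 : padicNorm p ((q.den : ℕ) : ℚ) = 1 := (padicNorm.nat_eq_one_iff q.den).mpr hp
    have : logNorm (q.den : ℚ) p = 0 := by
      unfold logNorm; rw [h1]; simp
    rw [this, neg_zero]
    exact Real.posLog_nonneg

variable {K : Type*} [Field K] [CharZero K] (A : QbarAbs K)

/-- The height of a rational number, in `gsum` form, bounds `log (den q)` and
`log |q| + log (den q) = log |num q|`. -/
theorem gsum_posLog_rat_ge (q : ℚ) :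
    Real.posLog |(q : ℝ)| + Real.log (q.den : ℝ)
      ≤ A.gsum (fun p => Real.posLog (A.abv p (q : K))) := by
  have hfs := hasFiniteSupport_posLog A (q : K)
  have hfs' : HasFiniteSupport
      ((fun p : Option Nat.Primes => Real.posLog (A.abv p (q : K))) ∘ some) :=
    hfs.comp_of_injective (Option.some_injective _)
  have hsome : (fun p : Nat.Primes => Real.posLog (A.abv (some p) (q : K)))
      = fun p : Nat.Primes => Real.posLog ((padicNorm p q : ℚ) : ℝ) := by
    funext p
    rw [abv_some, A.fin_rat]
  have hfs'' : HasFiniteSupport (fun p : Nat.Primes => Real.posLog ((padicNorm p q : ℚ) : ℝ)) := by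
    rw [← hsome]; exact hfs'
  obtain ⟨hden, hsum⟩ := sum_log_padicNorm_nat q.den q.den_ne_zero
  have hden' : HasFiniteSupport (fun p => -logNorm ((q.den : ℕ) : ℚ) p) := by
    have : support (fun p => -logNorm ((q.den : ℕ) : ℚ) p) = support (logNorm ((q.den : ℕ) : ℚ)) := by
      ext p; simp
    rw [HasFiniteSupport, this]; exact hden
  unfold QbarAbs.gsum
  rw [finsum_option hfs', hsome, abv_none, inf_rat]
  have h1 : Real.log (q.den : ℝ) = ∑ᶠ p : Nat.Primes, -logNorm ((q.den : ℕ) : ℚ) p := by
    rw [finsum_neg_distrib, hsum, neg_neg]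
  rw [h1]
  exact add_le_add_right (finsum_le_finsum' hden' hfs'' (fun p => neg_logNorm_den_le q p)) _

end RatNorthcott

/-- Finitely many rational numbers with `den ≤ M` and `|num| ≤ M`. -/
theorem finite_rat_num_den_le (M : ℕ) :
    {q : ℚ | q.num.natAbs ≤ M ∧ q.den ≤ M}.Finite := by
  have hfin : ((Set.Icc (-(M : ℤ)) M) ×ˢ (Set.Icc 0 M : Set ℕ)).Finite :=
    (Set.finite_Icc _ _).prod (Set.finite_Icc _ _)
  refine (hfin.image (fun ab : ℤ × ℕ => (ab.1 : ℚ) / (ab.2 : ℚ))).subset ?_
  intro q hq
  refine ⟨(q.num, q.den), ⟨⟨?_, ?_⟩, ⟨Nat.zero_le _, hq.2⟩⟩, Rat.num_div_den q⟩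
  · have := hq.1
    simp only
    omega
  · have := hq.1
    simp only
    omega

/-- The real-number version used below. -/
theorem finite_rat_of_log_bounds (H : ℝ) :
    {q : ℚ | Real.posLog |(q : ℝ)| + Real.log (q.den : ℝ) ≤ H}.Finite := by
  obtain ⟨M, hM⟩ := exists_nat_ge (Real.exp H)
  refine (finite_rat_num_den_le M).subset ?_
  intro q hq
  change Real.posLog |(q : ℝ)| + Real.log (q.den : ℝ) ≤ H at hq
  change q.num.natAbs ≤ M ∧ q.den ≤ M
  have hdenpos : (0 : ℝ) < q.den := by exact_mod_cast q.den_pos
  have hden1 : (1 : ℝ) ≤ q.den := by exact_mod_cast q.den_pos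
  have hlogden : 0 ≤ Real.log (q.den : ℝ) := Real.log_nonneg hden1
  have hpl : 0 ≤ Real.posLog |(q : ℝ)| := Real.posLog_nonneg
  constructor
  · -- |num| = |q| * den
    rcases eq_or_ne q 0 with rfl | hq0
    · simp
    have hqabs : (0 : ℝ) < |(q : ℝ)| := abs_pos.mpr (by exact_mod_cast hq0)
    have hnum : (q.num.natAbs : ℝ) = |(q : ℝ)| * q.den := by
      have h1 : (q : ℝ) = (q.num : ℝ) / (q.den : ℝ) := by
        exact_mod_cast (Rat.num_div_den q).symm
      rw [h1, abs_div, Nat.abs_cast, Nat.cast_natAbs, Int.cast_abs]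
      field_simp
    have hlog : Real.log (q.num.natAbs : ℝ) ≤ H := by
      rw [hnum, Real.log_mul hqabs.ne' hdenpos.ne']
      have : Real.log |(q : ℝ)| ≤ Real.posLog |(q : ℝ)| := by
        unfold Real.posLog; exact le_max_right _ _
      linarith
    have hnumpos : (0 : ℝ) < (q.num.natAbs : ℝ) := by
      rw [hnum]; positivity
    have : (q.num.natAbs : ℝ) ≤ Real.exp H := by
      rw [← Real.exp_log hnumpos]; exact Real.exp_le_exp.mpr hlog
    exact_mod_cast this.trans hM
  · have hlog : Real.log (q.den : ℝ) ≤ H := by linarith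
    have : (q.den : ℝ) ≤ Real.exp H := by
      rw [← Real.exp_log hdenpos]; exact Real.exp_le_exp.mpr hlog
    exact_mod_cast this.trans hM

/-! ### Local bounds for the coefficients of `∏ (X - a)` -/

section CoeffBound

variable {K : Type*} [Field K]

/-- The polynomial `∏_{a ∈ S} (X - a)`. -/
noncomputable def rootPoly (S : Multiset K) : K[X] := (S.map fun a => X - C a).prod

theorem rootPoly_zero : rootPoly (0 : Multiset K) = 1 := by simp [rootPoly]

theorem rootPoly_cons (a : K) (S : Multiset K) : rootPoly (a ::ₘ S) = (X - C a) * rootPoly S := by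
  simp [rootPoly]

theorem coeff_rootPoly_cons_zero (a : K) (S : Multiset K) :
    (rootPoly (a ::ₘ S)).coeff 0 = -(a * (rootPoly S).coeff 0) := by
  rw [rootPoly_cons, sub_mul, coeff_sub, coeff_X_mul_zero, coeff_C_mul, zero_sub]

theorem coeff_rootPoly_cons_succ (a : K) (S : Multiset K) (k : ℕ) :
    (rootPoly (a ::ₘ S)).coeff (k + 1) = (rootPoly S).coeff k - a * (rootPoly S).coeff (k + 1) := by
  rw [rootPoly_cons, sub_mul, coeff_sub, coeff_X_mul, coeff_C_mul]

/-- The product `∏_{a ∈ S} max(1, |a|_v)`. -/
noncomputable def maxProd (v : AbsoluteValue K ℝ) (S : Multiset K) : ℝ :=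
  (S.map fun a => max 1 (v a)).prod

theorem maxProd_zero (v : AbsoluteValue K ℝ) : maxProd v (0 : Multiset K) = 1 := by
  simp [maxProd]

theorem maxProd_cons (v : AbsoluteValue K ℝ) (a : K) (S : Multiset K) :
    maxProd v (a ::ₘ S) = max 1 (v a) * maxProd v S := by
  simp [maxProd]

theorem one_le_maxProd (v : AbsoluteValue K ℝ) (S : Multiset K) : 1 ≤ maxProd v S := by
  induction S using Multiset.induction_on with
  | empty => rw [maxProd_zero]
  | cons a S ih =>
    rw [maxProd_cons]
    exact one_le_mul_of_one_le_of_one_le (le_max_left _ _) ih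

theorem coeff_rootPoly_le_nonarch (v : AbsoluteValue K ℝ) (hv : IsNonarchimedean v)
    (S : Multiset K) : ∀ k : ℕ, v ((rootPoly S).coeff k) ≤ maxProd v S := by
  induction S using Multiset.induction_on with
  | empty =>
    intro k
    rw [rootPoly_zero, maxProd_zero, coeff_one]
    split_ifs <;> simp
  | cons a S ih =>
    intro k
    have hM : 0 ≤ maxProd v S := le_trans zero_le_one (one_le_maxProd v S)
    have h1 : ∀ j, v (a * (rootPoly S).coeff j) ≤ max 1 (v a) * maxProd v S := by
      intro j
      rw [map_mul]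
      exact mul_le_mul (le_max_right _ _) (ih j) (v.nonneg _) (le_trans zero_le_one (le_max_left _ _))
    have h2 : ∀ j, v ((rootPoly S).coeff j) ≤ max 1 (v a) * maxProd v S := by
      intro j
      calc v ((rootPoly S).coeff j) ≤ maxProd v S := ih j
        _ = 1 * maxProd v S := (one_mul _).symm
        _ ≤ max 1 (v a) * maxProd v S := mul_le_mul_of_nonneg_right (le_max_left _ _) hM
    rw [maxProd_cons]
    cases k with
    | zero =>
      rw [coeff_rootPoly_cons_zero, map_neg_eq_map]
      exact h1 0
    | succ k =>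
      rw [coeff_rootPoly_cons_succ, sub_eq_add_neg]
      refine le_trans (hv _ _) (max_le (h2 k) ?_)
      rw [map_neg_eq_map]
      exact h1 (k + 1)

theorem coeff_rootPoly_le_arch (v : AbsoluteValue K ℝ)
    (S : Multiset K) : ∀ k : ℕ, v ((rootPoly S).coeff k) ≤ 2 ^ S.card * maxProd v S := by
  induction S using Multiset.induction_on with
  | empty =>
    intro k
    rw [rootPoly_zero, maxProd_zero, coeff_one]
    split_ifs <;> simp
  | cons a S ih =>
    intro k
    have hM : 0 ≤ maxProd v S := le_trans zero_le_one (one_le_maxProd v S)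
    have hm : (1 : ℝ) ≤ max 1 (v a) := le_max_left _ _
    have hB : 0 ≤ (2 : ℝ) ^ S.card * maxProd v S := by positivity
    have h1 : ∀ j, v (a * (rootPoly S).coeff j) ≤ max 1 (v a) * (2 ^ S.card * maxProd v S) := by
      intro j
      rw [map_mul]
      exact mul_le_mul (le_max_right _ _) (ih j) (v.nonneg _) (le_trans zero_le_one hm)
    have h2 : ∀ j, v ((rootPoly S).coeff j) ≤ max 1 (v a) * (2 ^ S.card * maxProd v S) := by
      intro j
      calc v ((rootPoly S).coeff j) ≤ 2 ^ S.card * maxProd v S := ih j
        _ = 1 * (2 ^ S.card * maxProd v S) := (one_mul _).symm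
        _ ≤ max 1 (v a) * (2 ^ S.card * maxProd v S) := mul_le_mul_of_nonneg_right hm hB
    have hgoal : max 1 (v a) * (2 ^ S.card * maxProd v S) + max 1 (v a) * (2 ^ S.card * maxProd v S)
        = 2 ^ (a ::ₘ S).card * maxProd v (a ::ₘ S) := by
      rw [maxProd_cons, Multiset.card_cons, pow_succ]; ring
    have hle : max 1 (v a) * (2 ^ S.card * maxProd v S)
        ≤ 2 ^ (a ::ₘ S).card * maxProd v (a ::ₘ S) := by
      rw [← hgoal]
      have : 0 ≤ max 1 (v a) * (2 ^ S.card * maxProd v S) := by positivity
      linarith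
    cases k with
    | zero =>
      rw [coeff_rootPoly_cons_zero, map_neg_eq_map]
      exact (h1 0).trans hle
    | succ k =>
      rw [coeff_rootPoly_cons_succ, sub_eq_add_neg, ← hgoal]
      refine le_trans (v.add_le _ _) (add_le_add (h2 k) ?_)
      rw [map_neg_eq_map]
      exact h1 (k + 1)

theorem log_maxProd (v : AbsoluteValue K ℝ) (S : Multiset K) :
    Real.log (maxProd v S) = (S.map fun a => Real.posLog (v a)).sum := by
  induction S using Multiset.induction_on with
  | empty => simp [maxProd_zero]
  | cons a S ih =>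
    have hM : 0 < maxProd v S := lt_of_lt_of_le zero_lt_one (one_le_maxProd v S)
    have hm : (0 : ℝ) < max 1 (v a) := lt_of_lt_of_le zero_lt_one (le_max_left _ _)
    rw [maxProd_cons, Real.log_mul hm.ne' hM.ne', ih, Multiset.map_cons, Multiset.sum_cons,
      Real.posLog_eq_log_max_one (v.nonneg a)]

theorem posLog_coeff_rootPoly_le_nonarch (v : AbsoluteValue K ℝ) (hv : IsNonarchimedean v)
    (S : Multiset K) (k : ℕ) :
    Real.posLog (v ((rootPoly S).coeff k)) ≤ (S.map fun a => Real.posLog (v a)).sum := by
  rw [← log_maxProd]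
  have h1 := coeff_rootPoly_le_nonarch v hv S k
  have h2 := one_le_maxProd v S
  calc Real.posLog (v ((rootPoly S).coeff k)) ≤ Real.posLog (maxProd v S) :=
        Real.posLog_le_posLog (v.nonneg _) h1
    _ = Real.log (maxProd v S) := Real.posLog_eq_log (by rwa [abs_of_pos (by linarith)])

theorem posLog_coeff_rootPoly_le_arch (v : AbsoluteValue K ℝ)
    (S : Multiset K) (k : ℕ) :
    Real.posLog (v ((rootPoly S).coeff k))
      ≤ S.card * Real.log 2 + (S.map fun a => Real.posLog (v a)).sum := by
  rw [← log_maxProd]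
  have h1 := coeff_rootPoly_le_arch v S k
  have h2 := one_le_maxProd v S
  have h3 : (1 : ℝ) ≤ 2 ^ S.card := one_le_pow₀ (by norm_num)
  have h4 : 1 ≤ 2 ^ S.card * maxProd v S := one_le_mul_of_one_le_of_one_le h3 h2
  calc Real.posLog (v ((rootPoly S).coeff k)) ≤ Real.posLog (2 ^ S.card * maxProd v S) :=
        Real.posLog_le_posLog (v.nonneg _) h1
    _ = Real.log (2 ^ S.card * maxProd v S) :=
        Real.posLog_eq_log (by rwa [abs_of_pos (by linarith)])
    _ = S.card * Real.log 2 + Real.log (maxProd v S) := by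
        rw [Real.log_mul (by positivity) (by linarith), Real.log_pow]

end CoeffBound

/-! ### Rationality of the coefficients for Galois-stable `S` -/

section Stable

variable {K : Type*} [Field K]

theorem roots_rootPoly (S : Multiset K) : (rootPoly S).roots = S :=
  Polynomial.roots_multiset_prod_X_sub_C S

theorem natDegree_rootPoly (S : Multiset K) : (rootPoly S).natDegree = S.card :=
  Polynomial.natDegree_multiset_prod_X_sub_C_eq_card S

theorem map_rootPoly (σ : K →+* K) (S : Multiset K) :
    (rootPoly S).map σ = rootPoly (S.map σ) := by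
  unfold rootPoly
  rw [Polynomial.map_multiset_prod, Multiset.map_map, Multiset.map_map]
  congr 1
  apply Multiset.map_congr rfl
  intro a _
  simp

variable [Algebra ℚ K] [IsGalois ℚ K]

theorem coeff_rootPoly_mem_range (S : Multiset K) (hS : ∀ σ : K ≃ₐ[ℚ] K, S.map σ = S) (k : ℕ) :
    (rootPoly S).coeff k ∈ Set.range (algebraMap ℚ K) := by
  rw [InfiniteGalois.mem_range_algebraMap_iff_fixed]
  intro σ
  have h1 : (rootPoly S).map (σ : K →+* K) = rootPoly S := by
    rw [map_rootPoly]
    congr 1
    exact hS σ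
  have h2 := congrArg (fun P => P.coeff k) h1
  simp only [coeff_map] at h2
  exact h2

theorem exists_rat_poly (S : Multiset K) (hS : ∀ σ : K ≃ₐ[ℚ] K, S.map σ = S) :
    ∃ f : ℚ[X], f.map (algebraMap ℚ K) = rootPoly S ∧ f.natDegree = S.card := by
  have hmem : rootPoly S ∈ Polynomial.lifts (algebraMap ℚ K) := by
    rw [Polynomial.lifts_iff_coeff_lifts]
    intro n
    exact coeff_rootPoly_mem_range S hS n
  obtain ⟨f, hf, hdeg⟩ := Polynomial.exists_degree_eq_of_mem_lifts hmem
  refine ⟨f, hf, ?_⟩
  rw [← natDegree_rootPoly S]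
  exact natDegree_eq_natDegree hdeg

end Stable

/-- Finitely many multisets of given cardinality with elements in a finite set. -/
theorem finite_multisets_of_card {α : Type*} {Z : Set α} (hZ : Z.Finite) (r : ℕ) :
    {S : Multiset α | S.card = r ∧ ∀ a ∈ S, a ∈ Z}.Finite := by
  classical
  refine ((Finset.finite_toSet (hZ.toFinset.sym r)).image
    (fun m : Sym α r => (m : Multiset α))).subset ?_
  rintro S ⟨hc, hS⟩
  refine ⟨Sym.mk S hc, ?_, rfl⟩
  have : Sym.mk S hc ∈ hZ.toFinset.sym r := by
    rw [Finset.mem_sym_iff]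
    intro a ha
    exact hZ.mem_toFinset.mpr (hS a ((Sym.mem_mk a S hc).mp ha))
  exact this


/-! ### The global bound and the theorem -/

section Main

variable {K : Type*} [Field K] [CharZero K] (A : QbarAbs K)

/-- Height bound (in `gsum` form) for the coefficients of `∏_{a ∈ S} (X - a)`. -/
theorem gsum_posLog_coeff_le (S : Multiset K) (k : ℕ) :
    A.gsum (fun p => Real.posLog (A.abv p ((rootPoly S).coeff k)))
      ≤ S.card * Real.log 2 + A.heightSum S := by
  set E : Option Nat.Primes → ℝ :=
    fun p => if p = none then (S.card : ℝ) * Real.log 2 else 0 with hEdef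
  have hE : HasFiniteSupport E := by
    refine (Set.finite_singleton none).subset ?_
    intro p hp
    by_contra h
    exact hp (if_neg h)
  have hEsum : A.gsum E = S.card * Real.log 2 := by
    unfold QbarAbs.gsum
    rw [finsum_eq_single E none (fun p hp => if_neg hp)]
    exact if_pos rfl
  have hpt : ∀ p, Real.posLog (A.abv p ((rootPoly S).coeff k))
      ≤ E p + (S.map fun a => Real.posLog (A.abv p a)).sum := by
    intro p
    cases p with
    | none =>
      have : E none = (S.card : ℝ) * Real.log 2 := if_pos rfl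
      rw [this]
      exact posLog_coeff_rootPoly_le_arch (A.abv none) S k
    | some p =>
      have : E (some p) = 0 := if_neg (by simp)
      rw [this, zero_add]
      exact posLog_coeff_rootPoly_le_nonarch (A.abv (some p)) (A.fin_nonarch p) S k
  have hS := hasFiniteSupport_heightSummand A S
  calc A.gsum (fun p => Real.posLog (A.abv p ((rootPoly S).coeff k)))
      ≤ A.gsum (fun p => E p + (S.map fun a => Real.posLog (A.abv p a)).sum) :=
        gsum_le_gsum A (hasFiniteSupport_posLog A _) ((hE.union hS).subset (support_add _ _)) hpt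
    _ = A.gsum E + A.heightSum S := gsum_add A hE hS
    _ = S.card * Real.log 2 + A.heightSum S := by rw [hEsum]

variable [Algebra ℚ K] [IsGalois ℚ K]

/-- **Brick S2 (Northcott for Galois-stable multisets)**: finitely many Galois-stable multisets of
algebraic numbers of cardinality `r` and `heightSum ≤ B`. -/
theorem finite_stable_multisets (r : ℕ) (B : ℝ) :
    {S : Multiset K | S.card = r ∧ (∀ σ : K ≃ₐ[ℚ] K, S.map σ = S) ∧ A.heightSum S ≤ B}.Finite := by
  classical
  set H : ℝ := r * Real.log 2 + B with hH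
  have hU : {q : ℚ | Real.posLog |(q : ℝ)| + Real.log (q.den : ℝ) ≤ H}.Finite :=
    finite_rat_of_log_bounds H
  have hZ := Polynomial.bUnion_roots_finite (algebraMap ℚ K) r hU
  refine (finite_multisets_of_card hZ r).subset ?_
  rintro S ⟨hc, hst, hB⟩
  refine ⟨hc, fun a ha => ?_⟩
  obtain ⟨f, hf, hdeg⟩ := exists_rat_poly S hst
  simp only [Set.mem_iUnion]
  refine ⟨f, ⟨by rw [hdeg, hc], fun i => ?_⟩, ?_⟩
  · have h1 : algebraMap ℚ K (f.coeff i) = (rootPoly S).coeff i := by rw [← hf, coeff_map]
    have h2 := gsum_posLog_coeff_le A S i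
    rw [← h1, eq_ratCast, hc] at h2
    have h3 := gsum_posLog_rat_ge A (f.coeff i)
    change Real.posLog |((f.coeff i : ℚ) : ℝ)| + Real.log ((f.coeff i).den : ℝ) ≤ H
    linarith
  · rw [hf, roots_rootPoly]
    simpa using ha

end Main

/-- `ℚ̄` is an algebraic closure of `ℚ` for the default `ℚ`-algebra structure
(`DivisionRing.toRatAlgebra`, which is the one found by instance search). -/
theorem isAlgClosure_Qbar : IsAlgClosure ℚ (AlgebraicClosure ℚ) := by
  have : (DivisionRing.toRatAlgebra : Algebra ℚ (AlgebraicClosure ℚ))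
      = AlgebraicClosure.instAlgebra ℚ := Subsingleton.elim _ _
  rw [this]
  infer_instance

/-- `ℚ̄/ℚ` is Galois (for the default `ℚ`-algebra structure). -/
theorem isGalois_Qbar : IsGalois ℚ (AlgebraicClosure ℚ) :=
  haveI := isAlgClosure_Qbar
  IsAlgClosure.isGalois ℚ (AlgebraicClosure ℚ)

/-- **Brick S2** in the literal form of the contract `Spec.Bricks7.StableNorthcott`. -/
theorem stableNorthcott_literal :
    ∀ (A : QbarAbs (AlgebraicClosure ℚ)) (r : ℕ) (B : ℝ),
      {S : Multiset (AlgebraicClosure ℚ) | S.card = r ∧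
        (∀ σ : AlgebraicClosure ℚ ≃ₐ[ℚ] AlgebraicClosure ℚ, S.map σ = S) ∧
        A.heightSum S ≤ B}.Finite :=
  fun A r B => haveI := isGalois_Qbar; finite_stable_multisets A r B

end Fermat.Agent.MW.Arith.StableNorthcott62
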