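/-
Program MW-H (S17), brick D1 (helper80): GALOIS DESCENT for finite-dimensional stable subspaces.

Setting: `L / k` a normal field extension, `G = L ≃ₐ[k] L`, `F / L` a field on which `G` acts
semilinearly through `γ : G →* SemilinearAut L F` (`base`: the action on the constants is the
tautological one) and smoothly (`smooth`: every `f : F` is fixed by the pointwise stabiliser of a
finite-dimensional intermediate field).

Results.
* `mem_span_fixed`: in a `G`-stable `L`-subspace `W ≤ F` every vector is an `L`-linear combination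
  of `G`-fixed vectors of `W`.  Proof: if not, a linear functional `λ` kills the span of the fixed
  vectors but not `w`; for `E` with `Gal(L/E)` fixing `w` the "trace sums"
  `T_e = ∑_{φ : E →ₐ[k] L} φ(e) • γ(φ̃) • w` are fixed vectors of `W`, so `∑_φ φ(e) λ(γ(φ̃) w) = 0`
  for all `e ∈ E`, and Dedekind's independence of the `φ` gives `λ(w) = 0`.
  No separability assumption, no matrices.
* `exists_fixed_basis`: a finite-dimensional stable `W` has a basis of fixed vectors indexed by
  `Fin (finrank L W)`.
* `galoisDescent (S : HSetup F) : S.GaloisDescent` — the contract of `Spec/Bricks7b`, literally.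
-/
import Mathlib
import Fermat.Agent.MW.Spec.Bricks7b

set_option autoImplicit false

open AlgebraicCurve

namespace Fermat.Agent.MW.Arith.GaloisDescent80

noncomputable section

section Engine

variable {k L F : Type*} [Field k] [Field L] [Algebra k L] [Normal k L] [Field F] [Algebra L F]
variable (γ : (L ≃ₐ[k] L) →* SemilinearAut L F)

omit [Normal k L] in
/-- The action is semilinear over the tautological action on the constants. -/
theorem smul_smul_eq
    (base : ∀ (σ : L ≃ₐ[k] L) (a : L), SemilinearAut.baseAut (γ σ) a = σ a)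
    (σ : L ≃ₐ[k] L) (a : L) (f : F) : γ σ • (a • f) = σ a • (γ σ • f) := by
  rw [Algebra.smul_def, Algebra.smul_def, smul_mul', SemilinearAut.smul_algebraMap, base]

omit [Normal k L] in
/-- Two automorphisms which agree on `E` act in the same way on a vector fixed by `Gal(L/E)`. -/
theorem smul_eq_of_agree (E : IntermediateField k L) (w : F)
    (hw : ∀ σ : L ≃ₐ[k] L, (∀ e ∈ E, σ e = e) → γ σ • w = w)
    (σ σ' : L ≃ₐ[k] L) (h : ∀ e ∈ E, σ e = σ' e) : γ σ • w = γ σ' • w := by
  have h1 : γ (σ'⁻¹ * σ) • w = w := by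
    apply hw
    intro e he
    rw [AlgEquiv.mul_apply, h e he]
    exact σ'.symm_apply_apply e
  calc γ σ • w = γ (σ' * (σ'⁻¹ * σ)) • w := by rw [mul_inv_cancel_left]
    _ = γ σ' • (γ (σ'⁻¹ * σ) • w) := by rw [map_mul, mul_smul]
    _ = γ σ' • w := by rw [h1]

/-- Every embedding of an intermediate field extends to an automorphism of `L`. -/
theorem exists_lift (E : IntermediateField k L) (φ : E →ₐ[k] L) :
    ∃ σ : L ≃ₐ[k] L, ∀ e : E, σ e = φ e := by
  refine ⟨AlgEquiv.ofBijective (φ.liftNormal L) (AlgHom.normal_bijective k L L _), fun e => ?_⟩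
  have := φ.liftNormal_commutes L e
  simpa using this

/-- A chosen extension of an embedding to an automorphism. -/
def lift (E : IntermediateField k L) (φ : E →ₐ[k] L) : L ≃ₐ[k] L := (exists_lift E φ).choose

theorem lift_apply (E : IntermediateField k L) (φ : E →ₐ[k] L) (e : E) :
    lift E φ e = φ e := (exists_lift E φ).choose_spec e

variable (E : IntermediateField k L) [FiniteDimensional k E]

/-- The trace sum `T_e(w) = ∑_φ φ(e) • γ(φ̃) • w`. -/
def traceSum (w : F) (e : E) : F := ∑ φ : E →ₐ[k] L, φ e • (γ (lift E φ) • w)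

/-- The trace sums are fixed vectors. -/
theorem smul_traceSum
    (base : ∀ (σ : L ≃ₐ[k] L) (a : L), SemilinearAut.baseAut (γ σ) a = σ a)
    (w : F) (hw : ∀ σ : L ≃ₐ[k] L, (∀ e ∈ E, σ e = e) → γ σ • w = w)
    (e : E) (ρ : L ≃ₐ[k] L) : γ ρ • traceSum γ E w e = traceSum γ E w e := by
  unfold traceSum
  rw [Finset.smul_sum]
  -- reindex by `φ ↦ ρ ∘ φ`
  let c : (E →ₐ[k] L) ≃ (E →ₐ[k] L) :=
    { toFun := fun φ => (ρ : L →ₐ[k] L).comp φ
      invFun := fun φ => (ρ.symm : L →ₐ[k] L).comp φ
      left_inv := fun _ => by ext x; simp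
      right_inv := fun _ => by ext x; simp }
  refine Fintype.sum_equiv c _ _ fun φ => ?_
  rw [smul_smul_eq γ base, ← mul_smul, ← map_mul]
  have h1 : (c φ) e = ρ (φ e) := rfl
  rw [h1]
  congr 1
  apply smul_eq_of_agree γ E w hw
  intro x hx
  rw [AlgEquiv.mul_apply]
  have h2 := lift_apply E φ ⟨x, hx⟩
  have h3 := lift_apply E (c φ) ⟨x, hx⟩
  simp only at h2 h3
  rw [h2, h3]
  rfl

/-- The trace sums stay in a stable subspace. -/
theorem traceSum_mem (W : Submodule L F) (hW : ∀ (σ : L ≃ₐ[k] L) (f : F), f ∈ W → γ σ • f ∈ W)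
    {w : F} (hw : w ∈ W) (e : E) : traceSum γ E w e ∈ W :=
  Submodule.sum_mem _ fun _ _ => Submodule.smul_mem _ _ (hW _ _ hw)

/-- **Dedekind**: a functional which kills all trace sums of `w` kills `w`. -/
theorem eq_zero_of_traceSum (w : F)
    (hw : ∀ σ : L ≃ₐ[k] L, (∀ e ∈ E, σ e = e) → γ σ • w = w)
    (lam : F →ₗ[L] L) (h : ∀ e : E, lam (traceSum γ E w e) = 0) : lam w = 0 := by
  classical
  have hli := linearIndependent_toLinearMap k E L
  rw [Fintype.linearIndependent_iff] at hli
  have hsum : ∑ φ : E →ₐ[k] L, lam (γ (lift E φ) • w) • (AlgHom.toLinearMap φ : E →ₗ[k] L) = 0 := by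
    apply LinearMap.ext
    intro e
    have := h e
    unfold traceSum at this
    rw [map_sum] at this
    rw [LinearMap.sum_apply, LinearMap.zero_apply, ← this]
    refine Finset.sum_congr rfl fun φ _ => ?_
    rw [LinearMap.smul_apply, AlgHom.toLinearMap_apply, smul_eq_mul,
      lam.map_smul (φ e) (γ (lift E φ) • w), smul_eq_mul, mul_comm]
  have h0 := hli _ hsum E.val
  have h1 : γ (lift E E.val) • w = w := by
    apply hw
    intro e he
    exact lift_apply E E.val ⟨e, he⟩
  rw [h1] at h0
  exact h0

end Engine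

section Main

variable {k L F : Type*} [Field k] [Field L] [Algebra k L] [Normal k L] [Field F] [Algebra L F]
variable (γ : (L ≃ₐ[k] L) →* SemilinearAut L F)
variable (base : ∀ (σ : L ≃ₐ[k] L) (a : L), SemilinearAut.baseAut (γ σ) a = σ a)
variable (smooth : ∀ f : F, ∃ E : IntermediateField k L, FiniteDimensional k E ∧
    ∀ σ : L ≃ₐ[k] L, (∀ e ∈ E, σ e = e) → γ σ • f = f)

include base smooth in
/-- **Galois descent, spanning form**: every vector of a stable subspace is a linear combination
of fixed vectors of that subspace. -/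
theorem mem_span_fixed (W : Submodule L F)
    (hW : ∀ (σ : L ≃ₐ[k] L) (f : F), f ∈ W → γ σ • f ∈ W) {w : F} (hw : w ∈ W) :
    w ∈ Submodule.span L {f : F | f ∈ W ∧ ∀ σ : L ≃ₐ[k] L, γ σ • f = f} := by
  classical
  by_contra hcon
  obtain ⟨lam, hlam, hker⟩ := Submodule.exists_dual_map_eq_bot_of_notMem hcon inferInstance
  obtain ⟨E, hE, hfix⟩ := smooth w
  apply hlam
  refine eq_zero_of_traceSum γ E w hfix lam fun e => ?_
  have hmem : traceSum γ E w e ∈ Submodule.span L {f : F | f ∈ W ∧ ∀ σ : L ≃ₐ[k] L, γ σ • f = f} :=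
    Submodule.subset_span ⟨traceSum_mem γ E W hW hw e, fun ρ => smul_traceSum γ E base w hfix e ρ⟩
  have : lam (traceSum γ E w e) ∈ Submodule.map lam
      (Submodule.span L {f : F | f ∈ W ∧ ∀ σ : L ≃ₐ[k] L, γ σ • f = f}) :=
    Submodule.mem_map_of_mem hmem
  rw [hker] at this
  exact (Submodule.mem_bot L).mp this

include base smooth in
/-- **Galois descent**: a finite-dimensional stable subspace has a basis of fixed vectors. -/
theorem exists_fixed_basis (W : Submodule L F) [FiniteDimensional L W]
    (hW : ∀ (σ : L ≃ₐ[k] L) (f : F), f ∈ W → γ σ • f ∈ W) :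
    ∃ b : Fin (Module.finrank L W) → F, (∀ (σ : L ≃ₐ[k] L) i, γ σ • b i = b i) ∧
      LinearIndependent L b ∧ Submodule.span L (Set.range b) = W := by
  classical
  set t : Set F := {f : F | f ∈ W ∧ ∀ σ : L ≃ₐ[k] L, γ σ • f = f} with ht
  have hspan : Submodule.span L t = W := by
    apply le_antisymm
    · exact Submodule.span_le.mpr fun f hf => hf.1
    · intro w hw
      exact mem_span_fixed γ base smooth W hW hw
  obtain ⟨b, hbt, hbspan, hbli⟩ := exists_linearIndependent L t
  rw [hspan] at hbspan
  have hrange : Set.range (Subtype.val : b → F) = b := Subtype.range_coe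
  -- `b` is finite
  have hfin : Finite b := by
    have B := Module.Basis.span hbli
    rw [hrange, hbspan] at B
    exact Module.Finite.finite_basis B
  have : Fintype b := Fintype.ofFinite b
  have hcard : Fintype.card b = Module.finrank L W := by
    have := finrank_span_eq_card hbli
    rw [hrange] at this
    rw [← this]
    exact congrArg (fun V : Submodule L F => Module.finrank L V) hbspan
  let e : b ≃ Fin (Module.finrank L W) := Fintype.equivFinOfCardEq hcard
  refine ⟨fun i => (e.symm i : F), fun σ i => (hbt (e.symm i).2).2 σ, ?_, ?_⟩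
  · exact hbli.comp _ e.symm.injective
  · have : Set.range (fun i => ((e.symm i : b) : F)) = b :=
      Set.ext fun x => ⟨by rintro ⟨i, rfl⟩; exact (e.symm i).2, fun hx => ⟨e ⟨x, hx⟩, by simp⟩⟩
    rw [this, hbspan]

end Main

end

/-! ### The contract of `Spec/Bricks7b` -/

open Fermat.Agent.MW.Spec.Bricks7b in
/-- **Brick D1**: Galois descent for the standing data. -/
theorem galoisDescent {F : Type} [Field F] [Algebra Qb F]
    [HasCanonicalDivisor (K := Qb) (F := F)] (S : HSetup F) : S.GaloisDescent := by
  intro W hWfin hW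
  have h1 : Algebra.IsAlgebraic ℚ Qb := AlgebraicClosure.isAlgebraic ℚ
  have h2 : IsAlgClosure ℚ Qb := ⟨inferInstance, inferInstance⟩
  have : Normal ℚ Qb := IsAlgClosure.normal ℚ Qb
  exact exists_fixed_basis S.γ S.base S.smooth W hW

end Fermat.Agent.MW.Arith.GaloisDescent80
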