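/-
Program MW (S17), height part H, brick S1b of `Spec.Bricks7` (helper62): the contract
`Bricks7.ProductFormula` is discharged by `ProductFormula62.gsum_log_rat`.
-/
import Mathlib
import Fermat.Agent.MW.Spec.Bricks7
import Fermat.Agent.MW.Arith.ProductFormula62

set_option autoImplicit false

namespace Fermat.Agent.MW.Arith.ProductFormulaBrick62

open Fermat.Agent.MW.Spec.Defs7 Fermat.Agent.MW.Spec.Bricks7

/-- **Brick S1b** (`Bricks7.ProductFormula`): the product formula for rational numbers. -/
theorem productFormula : ProductFormula :=
  fun A q hq => Fermat.Agent.MW.Arith.ProductFormula62.gsum_log_rat A q hq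

end Fermat.Agent.MW.Arith.ProductFormulaBrick62
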