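/-
Program MW (S17), height part H, brick S1a (helper62): EXISTENCE of a family of absolute values
on `ℚ̄ = AlgebraicClosure ℚ`, one above every place of `ℚ` (`Spec.Defs7.QbarAbs`).

* `embC : ℚ̄ →ₐ[ℚ] ℂ`, `embP p : ℚ̄ →ₐ[ℚ] PadicAlgCl p` : embeddings (`IsAlgClosed.lift`);
* `absInf`, `absFin p` : the induced absolute values;
* `norm_le_one_of_isIntegral_int` : integral elements of an ultrametric normed field have norm `≤ 1`;
* `absFin_finite_ne_one` : `|x|_p = 1` for almost all `p` (`x ≠ 0`);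
* `qbarAbs : QbarAbs (AlgebraicClosure ℚ)`, `qbarAbsExists_literal`.
-/
import Mathlib
import Fermat.Agent.MW.Spec.Defs7
import Fermat.Agent.MW.Arith.ProductFormula62

set_option autoImplicit false

namespace Fermat.Agent.MW.Arith.QbarAbsExists62

open Polynomial Fermat.Agent.MW.Spec.Defs7 Fermat.Agent.MW.Arith.ProductFormula62

/-- `ℚ̄`. -/
abbrev Qbar := AlgebraicClosure ℚ

instance isAlgebraicQbar : Algebra.IsAlgebraic ℚ Qbar := AlgebraicClosure.isAlgebraic ℚ

/-- A complex embedding of `ℚ̄`. -/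
noncomputable def embC : Qbar →ₐ[ℚ] ℂ := IsAlgClosed.lift

/-- An embedding of `ℚ̄` into the algebraic closure of `ℚ_p`. -/
noncomputable def embP (p : Nat.Primes) : Qbar →ₐ[ℚ] PadicAlgCl p := IsAlgClosed.lift

/-- The archimedean absolute value of `ℚ̄` induced by `embC`. -/
noncomputable def absInf : AbsoluteValue Qbar ℝ :=
  (NormedField.toAbsoluteValue ℂ).comp (f := (embC : Qbar →+* ℂ)) embC.injective

/-- The absolute value of `ℚ̄` above `p` induced by `embP p`. -/
noncomputable def absFin (p : Nat.Primes) : AbsoluteValue Qbar ℝ :=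
  (NormedField.toAbsoluteValue (PadicAlgCl p)).comp (f := (embP p : Qbar →+* PadicAlgCl p))
    (embP p).injective

theorem absInf_apply (x : Qbar) : absInf x = ‖embC x‖ := rfl
theorem absFin_apply (p : Nat.Primes) (x : Qbar) : absFin p x = ‖embP p x‖ := rfl

theorem absFin_nonarch (p : Nat.Primes) : IsNonarchimedean (absFin p) := by
  intro x y
  rw [absFin_apply, absFin_apply, absFin_apply, map_add]
  exact PadicAlgCl.isNonarchimedean p _ _

theorem absFin_rat (p : Nat.Primes) (q : ℚ) : absFin p (q : Qbar) = (padicNorm p q : ℝ) := by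
  rw [absFin_apply, map_ratCast]
  have : ((q : PadicAlgCl p)) = algebraMap ℚ_[p] (PadicAlgCl p) (q : ℚ_[p]) := by
    rw [map_ratCast]
  rw [this]
  have h := PadicAlgCl.norm_extends p (q : ℚ_[p])
  rw [h, Padic.eq_padicNorm]

section Integral

variable {Ω : Type*} [NormedField Ω] [IsUltrametricDist Ω]

/-- In an ultrametric normed field, elements integral over `ℤ` have norm `≤ 1`. -/
theorem norm_le_one_of_isIntegral_int {x : Ω} (hx : IsIntegral ℤ x) : ‖x‖ ≤ 1 := by
  have hR : ∀ a : ℤ, ‖algebraMap ℤ Ω a‖ ≤ 1 := by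
    intro a
    rw [eq_intCast]
    exact IsUltrametricDist.norm_intCast_le_one Ω a
  obtain ⟨f, hm, hf⟩ := hx
  by_contra hlt
  rw [not_le] at hlt
  set n := f.natDegree with hn
  rcases Nat.eq_zero_or_pos n with h0 | hpos
  · have hf1 : f = 1 := by
      have := Polynomial.eq_C_of_natDegree_eq_zero h0
      rw [this]
      have hc : f.coeff 0 = 1 := by
        have := hm.coeff_natDegree
        rwa [← hn, h0] at this
      rw [hc, Polynomial.C_1]
    rw [hf1] at hf
    simp at hf
  · rw [Polynomial.eval₂_eq_sum_range, Finset.sum_range_succ, hm.coeff_natDegree, map_one,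
      one_mul] at hf
    have hxn : x ^ n = -∑ i ∈ Finset.range n, algebraMap ℤ Ω (f.coeff i) * x ^ i := by
      rw [← hn] at hf
      exact eq_neg_of_add_eq_zero_right hf
    have hbound : ‖∑ i ∈ Finset.range n, algebraMap ℤ Ω (f.coeff i) * x ^ i‖ ≤ ‖x‖ ^ (n - 1) := by
      apply IsUltrametricDist.norm_sum_le_of_forall_le_of_nonneg (pow_nonneg (norm_nonneg x) _)
      intro i hi
      rw [Finset.mem_range] at hi
      rw [norm_mul, norm_pow]
      calc ‖algebraMap ℤ Ω (f.coeff i)‖ * ‖x‖ ^ i ≤ 1 * ‖x‖ ^ i :=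
            mul_le_mul_of_nonneg_right (hR _) (pow_nonneg (norm_nonneg x) i)
        _ = ‖x‖ ^ i := one_mul _
        _ ≤ ‖x‖ ^ (n - 1) := pow_le_pow_right₀ hlt.le (by omega)
    have h1 : ‖x‖ ^ n ≤ ‖x‖ ^ (n - 1) := by
      rw [← norm_pow, hxn, norm_neg]; exact hbound
    have h2 : ‖x‖ ^ (n - 1) < ‖x‖ ^ n := pow_lt_pow_right₀ hlt (by omega)
    exact absurd h1 (not_le.2 h2)

end Integral

/-- For `x` algebraic over `ℚ`, there is a nonzero integer `a` with `|x|_p ≤ 1` at all `p ∤ a`. -/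
theorem exists_int_absFin_le_one (x : Qbar) :
    ∃ a : ℤ, a ≠ 0 ∧ ∀ p : Nat.Primes, ¬ ((p : ℕ) : ℤ) ∣ a → absFin p x ≤ 1 := by
  have halg : IsAlgebraic ℤ x :=
    (IsFractionRing.isAlgebraic_iff ℤ ℚ Qbar).mpr (Algebra.IsAlgebraic.isAlgebraic x)
  obtain ⟨a, ha, hint⟩ := halg.exists_integral_multiple
  refine ⟨a, ha, fun p hp => ?_⟩
  have h1 : IsIntegral ℤ (embP p (a • x)) := hint.map (embP p).toRingHom.toIntAlgHom
  have h2 : ‖embP p (a • x)‖ ≤ 1 := norm_le_one_of_isIntegral_int h1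
  have h3 : a • x = ((a : ℚ) : Qbar) * x := by
    rw [zsmul_eq_mul]; push_cast; rfl
  have h4 : absFin p (a • x) = absFin p ((a : ℚ) : Qbar) * absFin p x := by
    rw [h3, map_mul]
  have h5 : absFin p ((a : ℚ) : Qbar) = 1 := by
    rw [absFin_rat]
    have := (padicNorm.int_eq_one_iff (p := p) a).mpr hp
    exact_mod_cast this
  rw [← absFin_apply, h4, h5, one_mul] at h2
  exact h2

theorem finite_primes_dvd (a : ℤ) (ha : a ≠ 0) : {p : Nat.Primes | ((p : ℕ) : ℤ) ∣ a}.Finite := by
  have hn : a.natAbs ≠ 0 := Int.natAbs_ne_zero.mpr ha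
  have hfin : (a.natAbs.divisors : Set ℕ).Finite := Finset.finite_toSet _
  have hinj : Function.Injective (fun p : Nat.Primes => (p : ℕ)) := fun p q h => Subtype.ext h
  refine Set.Finite.subset (hfin.preimage (hinj.injOn)) ?_
  intro p hp
  simp only [Set.mem_preimage, Finset.mem_coe, Nat.mem_divisors]
  exact ⟨Int.natCast_dvd.mp hp, hn⟩

theorem absFin_finite_ne_one (x : Qbar) (hx : x ≠ 0) : {p : Nat.Primes | absFin p x ≠ 1}.Finite := by
  obtain ⟨a, ha, hale⟩ := exists_int_absFin_le_one x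
  obtain ⟨b, hb, hble⟩ := exists_int_absFin_le_one x⁻¹
  refine ((finite_primes_dvd a ha).union (finite_primes_dvd b hb)).subset ?_
  intro p hp
  by_contra hnot
  rw [Set.mem_union, not_or] at hnot
  apply hp
  have h1 := hale p hnot.1
  have h2 := hble p hnot.2
  rw [map_inv₀] at h2
  have hpos : 0 < absFin p x := (absFin p).pos hx
  have h3 : 1 ≤ absFin p x := by
    rwa [inv_le_one₀ hpos] at h2
  exact le_antisymm h1 h3

/-- **Brick S1a**: a family of absolute values on `ℚ̄`, one above every place of `ℚ`. -/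
noncomputable def qbarAbs : QbarAbs Qbar where
  fin := absFin
  inf := absInf
  fin_nonarch := absFin_nonarch
  fin_rat := absFin_rat
  inf_cplx := ⟨(embC : Qbar →+* ℂ), fun _ => rfl⟩
  finite_ne_one := absFin_finite_ne_one

/-- **Brick S1a** in the literal form of the contract `Spec.Bricks7.QbarAbsExists`. -/
theorem qbarAbsExists_literal : Nonempty (QbarAbs (AlgebraicClosure ℚ)) := ⟨qbarAbs⟩

@[simp] theorem qbarAbs_fin (p : Nat.Primes) (x : Qbar) : qbarAbs.fin p x = ‖embP p x‖ := rfl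

@[simp] theorem qbarAbs_inf (x : Qbar) : qbarAbs.inf x = ‖embC x‖ := rfl

end Fermat.Agent.MW.Arith.QbarAbsExists62
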