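/-
Program MW (S17), height part H, brick S1a of `Spec.Bricks7` (helper62): the contract
`Bricks7.QbarAbsExists` is discharged by `QbarAbsExists62.qbarAbs`.
-/
import Mathlib
import Fermat.Agent.MW.Spec.Bricks7
import Fermat.Agent.MW.Arith.QbarAbsExists62

set_option autoImplicit false

namespace Fermat.Agent.MW.Arith.QbarAbsBrick62

open Fermat.Agent.MW.Spec.Defs7 Fermat.Agent.MW.Spec.Bricks7

/-- **Brick S1a** (`Bricks7.QbarAbsExists`). -/
theorem qbarAbsExists : QbarAbsExists :=
  ⟨Fermat.Agent.MW.Arith.QbarAbsExists62.qbarAbs⟩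

end Fermat.Agent.MW.Arith.QbarAbsBrick62
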