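/-
Program MW (S17), height part H, brick S2 of `Spec.Bricks7` (helper62): the contract
`Bricks7.StableNorthcott` is discharged by `StableNorthcott62.finite_stable_multisets`.
-/
import Mathlib
import Fermat.Agent.MW.Spec.Bricks7
import Fermat.Agent.MW.Arith.StableNorthcott62

set_option autoImplicit false

namespace Fermat.Agent.MW.Arith.StableNorthcottBrick62

open Fermat.Agent.MW.Spec.Defs7 Fermat.Agent.MW.Spec.Bricks7

/-- **Brick S2** (`Bricks7.StableNorthcott`). -/
theorem stableNorthcott : StableNorthcott :=
  Fermat.Agent.MW.Arith.StableNorthcott62.stableNorthcott_literal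

end Fermat.Agent.MW.Arith.StableNorthcottBrick62
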